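import Mathlib

/-!
# S55: abstract dévissage for `H³` of level-constant cochains, part 1 (helper593)

`G` any group, `𝓛 : Set (Subgroup G)` a family of subgroups ("levels"; think `PT.LevelSys.levels`).
Cochain-level vocabulary (identical, up to unfolding, to `K.H3Vanish` of helper4 and
`KL.H3Vanish` of helper53):

* `IsLC2 𝓛 f`, `IsLC3 𝓛 f` : level-constant 2- and 3-cochains;
* `IsCoc3 A z`            : the inhomogeneous 3-cocycle condition;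
* `H3V 𝓛 A`               : every level-constant 3-cocycle of `A` is `d₂₃` of a level-constant
                            2-cochain (`H³_lc(G, A) = 0`).

Closure properties:

* `H3V.of_retract`   : `A` a retract of `B`, `H3V B` ⇒ `H3V A`;
* `H3V.of_extension` : `0 → A' → A → A'' → 0` exact, some normal level acts trivially on `A`,
                       `H3V A'`, `H3V A''` ⇒ `H3V A`;
* `H3V.of_subsingleton`.

Mathlib only.
-/

set_option autoImplicit false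

namespace Fermat.Agent.S55.H593.Dev

open groupCohomology

variable {G : Type} [Group G] {k : Type} [CommRing k]

/-! ## Vocabulary -/

/-- Level-constant 2-cochains. -/
def IsLC2 (𝓛 : Set (Subgroup G)) {X : Type*} (f : G × G → X) : Prop :=
  ∃ U ∈ 𝓛, ∀ g g' s s' : G, s ∈ U → s' ∈ U → f (g * s, g' * s') = f (g, g')

/-- Level-constant 3-cochains. -/
def IsLC3 (𝓛 : Set (Subgroup G)) {X : Type*} (f : G × G × G → X) : Prop :=
  ∃ U ∈ 𝓛, ∀ g₁ g₂ g₃ s₁ s₂ s₃ : G, s₁ ∈ U → s₂ ∈ U → s₃ ∈ U →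
    f (g₁ * s₁, g₂ * s₂, g₃ * s₃) = f (g₁, g₂, g₃)

/-- The inhomogeneous 3-cocycle condition `d₃₄ f = 0`. -/
def IsCoc3 (A : Rep.{0, 0, 0} k G) (f : G × G × G → A) : Prop :=
  ∀ g h i j : G,
    A.ρ g (f (h, i, j)) - f (g * h, i, j) + f (g, h * i, j) - f (g, h, i * j) + f (g, h, i) = 0

/-- `H³_lc(G, A) = 0`: every level-constant 3-cocycle is `d` of a level-constant 2-cochain. -/
def H3V (𝓛 : Set (Subgroup G)) (A : Rep.{0, 0, 0} k G) : Prop :=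
  ∀ z : G × G × G → A, IsLC3 𝓛 z → IsCoc3 A z →
    ∃ b : G × G → A, IsLC2 𝓛 b ∧ (d₂₃ A).hom b = z

/-- The family of levels is directed. -/
def Directed' (𝓛 : Set (Subgroup G)) : Prop :=
  ∀ U ∈ 𝓛, ∀ V ∈ 𝓛, ∃ W ∈ 𝓛, W ≤ U ⊓ V

/-- Normal levels are cofinal. -/
def NormalCofinal' (𝓛 : Set (Subgroup G)) : Prop :=
  ∀ U ∈ 𝓛, ∃ V ∈ 𝓛, V ≤ U ∧ V.Normal

/-- Some level acts trivially on `A`. -/
def USmooth (𝓛 : Set (Subgroup G)) (A : Rep.{0, 0, 0} k G) : Prop :=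
  ∃ U ∈ 𝓛, ∀ s ∈ U, ∀ a : A, A.ρ s a = a

/-- `H` contains a level. -/
def IsOpenSub (𝓛 : Set (Subgroup G)) (H : Subgroup G) : Prop := ∃ U ∈ 𝓛, U ≤ H

/-! ## Elementary properties of level-constant cochains -/

lemma IsLC2.comp {𝓛 : Set (Subgroup G)} {X Y : Type*} {f : G × G → X} (hf : IsLC2 𝓛 f)
    (φ : X → Y) : IsLC2 𝓛 (φ ∘ f) := by
  obtain ⟨U, hU, h⟩ := hf
  exact ⟨U, hU, fun g g' s s' hs hs' => by simp only [Function.comp_apply, h g g' s s' hs hs']⟩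

lemma IsLC3.comp {𝓛 : Set (Subgroup G)} {X Y : Type*} {f : G × G × G → X} (hf : IsLC3 𝓛 f)
    (φ : X → Y) : IsLC3 𝓛 (φ ∘ f) := by
  obtain ⟨U, hU, h⟩ := hf
  exact ⟨U, hU, fun g₁ g₂ g₃ s₁ s₂ s₃ h₁ h₂ h₃ => by
    simp only [Function.comp_apply, h g₁ g₂ g₃ s₁ s₂ s₃ h₁ h₂ h₃]⟩

lemma IsLC3.of_comp_injective {𝓛 : Set (Subgroup G)} {X Y : Type*} {f : G × G × G → X}
    {φ : X → Y} (hφ : Function.Injective φ) (hf : IsLC3 𝓛 (φ ∘ f)) : IsLC3 𝓛 f := by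
  obtain ⟨U, hU, h⟩ := hf
  exact ⟨U, hU, fun g₁ g₂ g₃ s₁ s₂ s₃ h₁ h₂ h₃ => hφ (h g₁ g₂ g₃ s₁ s₂ s₃ h₁ h₂ h₃)⟩

lemma IsLC2.add {𝓛 : Set (Subgroup G)} (hd : Directed' 𝓛) {X : Type*} [Add X]
    {f f' : G × G → X} (hf : IsLC2 𝓛 f) (hf' : IsLC2 𝓛 f') : IsLC2 𝓛 (f + f') := by
  obtain ⟨U, hU, h⟩ := hf
  obtain ⟨V, hV, h'⟩ := hf'
  obtain ⟨W, hW, hle⟩ := hd U hU V hV
  refine ⟨W, hW, fun g g' s s' hs hs' => ?_⟩
  simp only [Pi.add_apply]
  rw [h g g' s s' (hle hs).1 (hle hs').1, h' g g' s s' (hle hs).2 (hle hs').2]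

lemma IsLC3.sub {𝓛 : Set (Subgroup G)} (hd : Directed' 𝓛) {X : Type*} [Sub X]
    {f f' : G × G × G → X} (hf : IsLC3 𝓛 f) (hf' : IsLC3 𝓛 f') : IsLC3 𝓛 (f - f') := by
  obtain ⟨U, hU, h⟩ := hf
  obtain ⟨V, hV, h'⟩ := hf'
  obtain ⟨W, hW, hle⟩ := hd U hU V hV
  refine ⟨W, hW, fun g₁ g₂ g₃ s₁ s₂ s₃ h₁ h₂ h₃ => ?_⟩
  simp only [Pi.sub_apply]
  rw [h g₁ g₂ g₃ s₁ s₂ s₃ (hle h₁).1 (hle h₂).1 (hle h₃).1,
    h' g₁ g₂ g₃ s₁ s₂ s₃ (hle h₁).2 (hle h₂).2 (hle h₃).2]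

/-- `d₂₃`, evaluated. -/
lemma d23_apply (A : Rep.{0, 0, 0} k G) (b : G × G → A) (g h j : G) :
    (d₂₃ A).hom b (g, h, j) = A.ρ g (b (h, j)) - b (g * h, j) + b (g, h * j) - b (g, h) :=
  d₂₃_hom_apply A b (g, h, j)

/-- `d ∘ d = 0` in degrees `2 → 3 → 4`. -/
lemma isCoc3_d23 (A : Rep.{0, 0, 0} k G) (b : G × G → A) : IsCoc3 A ((d₂₃ A).hom b) := by
  intro g h i j
  rw [d23_apply A b h i j, d23_apply A b (g * h) i j, d23_apply A b g (h * i) j,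
    d23_apply A b g h (i * j), d23_apply A b g h i]
  simp only [map_sub, map_add, mul_assoc]
  have e : A.ρ g (A.ρ h (b (i, j))) = A.ρ (g * h) (b (i, j)) := by
    rw [map_mul]; rfl
  rw [e]
  abel

lemma IsCoc3.sub {A : Rep.{0, 0, 0} k G} {f f' : G × G × G → A} (hf : IsCoc3 A f)
    (hf' : IsCoc3 A f') : IsCoc3 A (f - f') := by
  intro g h i j
  have h1 := hf g h i j
  have h2 := hf' g h i j
  simp only [Pi.sub_apply, map_sub]
  have : A.ρ g (f (h, i, j)) - A.ρ g (f' (h, i, j)) - (f (g * h, i, j) - f' (g * h, i, j))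
      + (f (g, h * i, j) - f' (g, h * i, j)) - (f (g, h, i * j) - f' (g, h, i * j))
      + (f (g, h, i) - f' (g, h, i))
      = (A.ρ g (f (h, i, j)) - f (g * h, i, j) + f (g, h * i, j) - f (g, h, i * j) + f (g, h, i))
        - (A.ρ g (f' (h, i, j)) - f' (g * h, i, j) + f' (g, h * i, j) - f' (g, h, i * j)
          + f' (g, h, i)) := by abel
  rw [this, h1, h2, sub_zero]

/-- Equivariant additive maps preserve 3-cocycles. -/
lemma IsCoc3.map {A B : Rep.{0, 0, 0} k G} (φ : A →ₗ[k] B)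
    (hφ : ∀ (g : G) (a : A), φ (A.ρ g a) = B.ρ g (φ a)) {f : G × G × G → A} (hf : IsCoc3 A f) :
    IsCoc3 B (φ ∘ f) := by
  intro g h i j
  have h1 := congrArg φ (hf g h i j)
  simp only [map_sub, map_add, map_zero, hφ] at h1
  exact h1

/-- Injective equivariant additive maps reflect 3-cocycles. -/
lemma IsCoc3.of_map {A B : Rep.{0, 0, 0} k G} (φ : A →ₗ[k] B) (hinj : Function.Injective φ)
    (hφ : ∀ (g : G) (a : A), φ (A.ρ g a) = B.ρ g (φ a)) {f : G × G × G → A}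
    (hf : IsCoc3 B (φ ∘ f)) : IsCoc3 A f := by
  intro g h i j
  apply hinj
  have h1 := hf g h i j
  simp only [Function.comp_apply] at h1
  simp only [map_sub, map_add, map_zero, hφ]
  exact h1

/-- Equivariant linear maps commute with `d₂₃`. -/
lemma d23_comp {A B : Rep.{0, 0, 0} k G} (φ : A →ₗ[k] B)
    (hφ : ∀ (g : G) (a : A), φ (A.ρ g a) = B.ρ g (φ a)) (b : G × G → A) :
    (d₂₃ B).hom (φ ∘ b) = φ ∘ (d₂₃ A).hom b := by
  funext ⟨g, h, j⟩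
  rw [d23_apply B (φ ∘ b) g h j]
  simp only [Function.comp_apply]
  rw [d23_apply A b g h j]
  simp only [map_sub, map_add, hφ]

/-- If a normal level acts trivially on `A`, then `d₂₃` of a level-constant cochain is
level-constant. -/
lemma IsLC2.d23 {𝓛 : Set (Subgroup G)} (hd : Directed' 𝓛) (hn : NormalCofinal' 𝓛)
    {A : Rep.{0, 0, 0} k G} (hA : USmooth 𝓛 A) {b : G × G → A} (hb : IsLC2 𝓛 b) :
    IsLC3 𝓛 ((d₂₃ A).hom b) := by
  obtain ⟨U, hU, hUA⟩ := hA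
  obtain ⟨V, hV, hVb⟩ := hb
  obtain ⟨W, hW, hle⟩ := hd U hU V hV
  obtain ⟨W', hW', hle', hnorm⟩ := hn W hW
  refine ⟨W', hW', fun g₁ g₂ g₃ s₁ s₂ s₃ h₁ h₂ h₃ => ?_⟩
  have hV' : ∀ s ∈ W', s ∈ V := fun s hs => (hle (hle' hs)).2
  have hU' : ∀ s ∈ W', s ∈ U := fun s hs => (hle (hle' hs)).1
  have c1 : ∀ s ∈ W', ∀ g : G, g⁻¹ * s * g ∈ W' := fun s hs g => by
    have := hnorm.conj_mem s hs g⁻¹
    simpa using this
  rw [d23_apply A b (g₁ * s₁) (g₂ * s₂) (g₃ * s₃), d23_apply A b g₁ g₂ g₃]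
  have e1 : b (g₂ * s₂, g₃ * s₃) = b (g₂, g₃) := hVb _ _ _ _ (hV' _ h₂) (hV' _ h₃)
  have e2 : b (g₁ * s₁ * (g₂ * s₂), g₃ * s₃) = b (g₁ * g₂, g₃) := by
    have : g₁ * s₁ * (g₂ * s₂) = g₁ * g₂ * (g₂⁻¹ * s₁ * g₂ * s₂) := by group
    rw [this]
    exact hVb _ _ _ _ (hV' _ (W'.mul_mem (c1 _ h₁ _) h₂)) (hV' _ h₃)
  have e3 : b (g₁ * s₁, g₂ * s₂ * (g₃ * s₃)) = b (g₁, g₂ * g₃) := by
    have : g₂ * s₂ * (g₃ * s₃) = g₂ * g₃ * (g₃⁻¹ * s₂ * g₃ * s₃) := by group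
    rw [this]
    exact hVb _ _ _ _ (hV' _ h₁) (hV' _ (W'.mul_mem (c1 _ h₂ _) h₃))
  have e4 : b (g₁ * s₁, g₂ * s₂) = b (g₁, g₂) := hVb _ _ _ _ (hV' _ h₁) (hV' _ h₂)
  have e5 : A.ρ (g₁ * s₁) (b (g₂, g₃)) = A.ρ g₁ (b (g₂, g₃)) := by
    rw [map_mul]
    show A.ρ g₁ (A.ρ s₁ (b (g₂, g₃))) = _
    rw [hUA _ (hU' _ h₁)]
  rw [e1, e2, e3, e4, e5]

/-! ## Closure properties of `H3V` -/

/-- `H3V` for a module with one element. -/
theorem H3V.of_subsingleton (𝓛 : Set (Subgroup G)) (h𝓛 : 𝓛.Nonempty) (A : Rep.{0, 0, 0} k G)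
    [Subsingleton A] : H3V 𝓛 A := by
  intro z _ _
  obtain ⟨U, hU⟩ := h𝓛
  refine ⟨0, ⟨U, hU, fun _ _ _ _ _ _ => rfl⟩, ?_⟩
  funext x
  exact Subsingleton.elim _ _

/-- **Retracts.**  If `r ∘ i = id` with `i : A → B`, `r : B → A` equivariant, then
`H3V B ⇒ H3V A`. -/
theorem H3V.of_retract {𝓛 : Set (Subgroup G)} {A B : Rep.{0, 0, 0} k G} (i : A →ₗ[k] B)
    (r : B →ₗ[k] A) (hi : ∀ (g : G) (a : A), i (A.ρ g a) = B.ρ g (i a))
    (hr : ∀ (g : G) (b : B), r (B.ρ g b) = A.ρ g (r b)) (hri : ∀ a, r (i a) = a)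
    (hB : H3V 𝓛 B) : H3V 𝓛 A := by
  intro z hz hcoc
  obtain ⟨b, hb, hdb⟩ := hB (i ∘ z) (hz.comp i) (hcoc.map i hi)
  refine ⟨r ∘ b, hb.comp r, ?_⟩
  rw [d23_comp r hr, hdb]
  funext x
  exact hri _

/-- **Extensions.**  If `0 → A' → A → A'' → 0` is exact (equivariant linear maps), the levels are
directed with cofinal normal levels, and some level acts trivially on `A`, then
`H3V A'` and `H3V A''` imply `H3V A`. -/
theorem H3V.of_extension {𝓛 : Set (Subgroup G)} (hd : Directed' 𝓛) (hn : NormalCofinal' 𝓛)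
    {A' A A'' : Rep.{0, 0, 0} k G} (hA : USmooth 𝓛 A)
    (i : A' →ₗ[k] A) (π : A →ₗ[k] A'')
    (hi : ∀ (g : G) (a : A'), i (A'.ρ g a) = A.ρ g (i a))
    (hπ : ∀ (g : G) (a : A), π (A.ρ g a) = A''.ρ g (π a))
    (hinj : Function.Injective i) (hsurj : Function.Surjective π)
    (hex : ∀ a : A, π a = 0 → ∃ a' : A', i a' = a)
    (h' : H3V 𝓛 A') (h'' : H3V 𝓛 A'') : H3V 𝓛 A := by
  classical
  intro z hz hcoc
  -- push to `A''`
  obtain ⟨b'', hb'', hdb''⟩ := h'' (π ∘ z) (hz.comp π) (hcoc.map π hπ)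
  -- lift `b''` by a set-theoretic section
  let s : A'' → A := Function.surjInv hsurj
  have hs : ∀ x, π (s x) = x := Function.surjInv_eq hsurj
  let bt : G × G → A := s ∘ b''
  have hbt : IsLC2 𝓛 bt := hb''.comp s
  have hπbt : (π : A → A'') ∘ bt = b'' := by
    funext x
    exact hs _
  -- the difference has values in `ker π`
  let w : G × G × G → A := z - (d₂₃ A).hom bt
  have hw0 : ∀ x, π (w x) = 0 := by
    intro x
    have h1 : (π : A → A'') ∘ (d₂₃ A).hom bt = (d₂₃ A'').hom ((π : A → A'') ∘ bt) :=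
      (d23_comp π hπ bt).symm
    have h2 : π ((d₂₃ A).hom bt x) = π (z x) := by
      have := congrFun h1 x
      simp only [Function.comp_apply] at this
      rw [this, hπbt, hdb'']
      rfl
    show π (z x - (d₂₃ A).hom bt x) = 0
    rw [map_sub, h2, sub_self]
  have hwLC : IsLC3 𝓛 w := hz.sub hd (hbt.d23 hd hn hA)
  have hwcoc : IsCoc3 A w := hcoc.sub (isCoc3_d23 A bt)
  -- descend to `A'`
  choose z' hz' using fun x => hex (w x) (hw0 x)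
  have hiz' : (i : A' → A) ∘ z' = w := funext hz'
  have hz'LC : IsLC3 𝓛 z' := IsLC3.of_comp_injective hinj (by rw [hiz']; exact hwLC)
  have hz'coc : IsCoc3 A' z' := IsCoc3.of_map i hinj hi (by rw [hiz']; exact hwcoc)
  obtain ⟨b', hb', hdb'⟩ := h' z' hz'LC hz'coc
  refine ⟨bt + (i : A' → A) ∘ b', hbt.add hd (hb'.comp i), ?_⟩
  rw [map_add, d23_comp i hi, hdb', hiz']
  funext x
  show (d₂₃ A).hom bt x + (z x - (d₂₃ A).hom bt x) = z x
  abel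

end Fermat.Agent.S55.H593.Dev
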