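import Fermat.Agent.S55.H593.Dev.Basic

/-!
# S55: abstract dévissage, part 2: induced modules `(G ⧸ P →₀ A)` and their filtrations (helper593)

* `dInd P A = (G ⧸ P →₀ A)` with the diagonal action (the same definition as `PT.indRep`,
  `K.indG`, `KL.indR`);
* `aug`, `diag` (`P` of finite index): `A` is a retract of `dInd P A` if `[G : P]` is invertible;
* `subI P A N` for a submodule `N ≤ A`: the `G`-stable submodule
  `{f | ∀ g, g⁻¹ • f(gP) ∈ N}` of `dInd P A`  (`= Ind_P^G N` if `N` is `P`-stable);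
* `piPsi ψ : subI P A N → (G ⧸ P →₀ k)` for a `P`-invariant functional `ψ : N → k`:
  equivariant, kernel `subI P A (ker ψ)`, surjective if `ψ ≠ 0`;
* `theta m₀ : (G ⧸ P →₀ k) → dInd P A` for a `P`-fixed vector `m₀` (equivariant).

Mathlib only.
-/

set_option autoImplicit false
set_option linter.style.haveILetI false

noncomputable section

namespace Fermat.Agent.S55.H593.Dev

open groupCohomology

variable {G : Type} [Group G] {k : Type} [CommRing k]

/-! ## The induced module -/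

/-- The diagonal representation of `G` on `(G ⧸ P →₀ A)`:
`g • single x a = single (g • x) (g • a)`. -/
def dIndρ (P : Subgroup G) (A : Rep.{0, 0, 0} k G) : Representation k G ((G ⧸ P) →₀ A) where
  toFun g := (Finsupp.lmapDomain A k (fun x : G ⧸ P => g • x)).comp
    (Finsupp.mapRange.linearMap (A.ρ g))
  map_one' := by
    ext x a : 2
    simp
  map_mul' g h := by
    ext x a : 2
    simp [mul_smul]

/-- `Ind_P A = (G ⧸ P →₀ A)` with the diagonal action. -/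
def dInd (P : Subgroup G) (A : Rep.{0, 0, 0} k G) : Rep.{0, 0, 0} k G := Rep.of (dIndρ P A)

lemma dIndρ_single (P : Subgroup G) (A : Rep.{0, 0, 0} k G) (g : G) (x : G ⧸ P) (a : A) :
    dIndρ P A g (Finsupp.single x a) = Finsupp.single (g • x) (A.ρ g a) := by
  simp [dIndρ]

/-- The action in coordinates: `(g • f)(y) = g • f(g⁻¹ • y)`. -/
lemma dIndρ_apply (P : Subgroup G) (A : Rep.{0, 0, 0} k G) (g : G) (f : (G ⧸ P) →₀ A)
    (y : G ⧸ P) : dIndρ P A g f y = A.ρ g (f (g⁻¹ • y)) := by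
  have hy : y = g • (g⁻¹ • y) := by rw [smul_inv_smul]
  show (Finsupp.mapDomain (fun x : G ⧸ P => g • x) (Finsupp.mapRange (A.ρ g) (map_zero _) f)) y = _
  conv_lhs => rw [hy]
  rw [Finsupp.mapDomain_apply (MulAction.injective g), Finsupp.mapRange_apply]

/-! ## Augmentation and diagonal -/

/-- The augmentation `Ind_P A → A`, `single x a ↦ a`. -/
def aug (P : Subgroup G) (A : Rep.{0, 0, 0} k G) : ((G ⧸ P) →₀ A) →ₗ[k] A :=
  Finsupp.lsum k (fun _ : G ⧸ P => (LinearMap.id : A →ₗ[k] A))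

@[simp] lemma aug_single (P : Subgroup G) (A : Rep.{0, 0, 0} k G) (x : G ⧸ P) (a : A) :
    aug P A (Finsupp.single x a) = a := by
  simp [aug]

lemma aug_equivariant (P : Subgroup G) (A : Rep.{0, 0, 0} k G) (g : G) (f : (G ⧸ P) →₀ A) :
    aug P A (dIndρ P A g f) = A.ρ g (aug P A f) := by
  induction f using Finsupp.induction_linear with
  | zero => simp
  | add f f' hf hf' => simp only [map_add, hf, hf']
  | single x a => rw [dIndρ_single, aug_single, aug_single]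

variable (P : Subgroup G) [Finite (G ⧸ P)]

/-- The diagonal `A → Ind_P A`, `a ↦ Σ_x single x a` (`P` of finite index). -/
def diag (A : Rep.{0, 0, 0} k G) : A →ₗ[k] ((G ⧸ P) →₀ A) :=
  ((Finsupp.linearEquivFunOnFinite k A (G ⧸ P)).symm : ((G ⧸ P) → A) →ₗ[k] ((G ⧸ P) →₀ A)) ∘ₗ
    LinearMap.pi (fun _ => LinearMap.id)

@[simp] lemma diag_apply (A : Rep.{0, 0, 0} k G) (a : A) (y : G ⧸ P) : diag P A a y = a := by
  simp [diag, Finsupp.linearEquivFunOnFinite]

lemma diag_equivariant (A : Rep.{0, 0, 0} k G) (g : G) (a : A) :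
    diag P A (A.ρ g a) = dIndρ P A g (diag P A a) := by
  ext y
  rw [dIndρ_apply, diag_apply, diag_apply]

lemma aug_diag (A : Rep.{0, 0, 0} k G) (a : A) :
    aug P A (diag P A a) = Nat.card (G ⧸ P) • a := by
  classical
  haveI := Fintype.ofFinite (G ⧸ P)
  have h : diag P A a = ∑ x : G ⧸ P, Finsupp.single x a := by
    ext y
    rw [diag_apply, Finsupp.finsetSum_apply]
    simp [Finsupp.single_apply]
  rw [h, map_sum]
  simp only [aug_single, Finset.sum_const, Finset.card_univ, Nat.card_eq_fintype_card]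

omit [Finite (G ⧸ P)] in
lemma smul_aug_equivariant (A : Rep.{0, 0, 0} k G) (c : k) (g : G) (f : (G ⧸ P) →₀ A) :
    (c • aug P A) (dIndρ P A g f) = A.ρ g ((c • aug P A) f) := by
  rw [LinearMap.smul_apply, LinearMap.smul_apply, aug_equivariant, map_smul]

/-- `A` is a retract of `Ind_P A` if `[G : P]` is invertible in `k`. -/
lemma smul_aug_diag (A : Rep.{0, 0, 0} k G) (c : k) (hc : c * (Nat.card (G ⧸ P) : k) = 1)
    (a : A) : (c • aug P A) (diag P A a) = a := by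
  rw [LinearMap.smul_apply, aug_diag, ← Nat.cast_smul_eq_nsmul k, smul_smul, hc, one_smul]

/-! ## The filtration pieces `subI P A N` -/

variable {P}

omit [Finite (G ⧸ P)] in
/-- `{f ∈ Ind_P A | ∀ g, g⁻¹ • f(gP) ∈ N}`. -/
def subI (P : Subgroup G) (A : Rep.{0, 0, 0} k G) (N : Submodule k A) :
    Submodule k ((G ⧸ P) →₀ A) where
  carrier := {f | ∀ g : G, A.ρ g⁻¹ (f (g : G ⧸ P)) ∈ N}
  add_mem' {f f'} hf hf' g := by
    rw [Finsupp.add_apply, map_add]
    exact N.add_mem (hf g) (hf' g)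
  zero_mem' g := by
    rw [Finsupp.zero_apply, map_zero]
    exact N.zero_mem
  smul_mem' c f hf g := by
    rw [Finsupp.smul_apply, map_smul]
    exact N.smul_mem c (hf g)

omit [Finite (G ⧸ P)] in
lemma mem_subI {A : Rep.{0, 0, 0} k G} {N : Submodule k A} {f : (G ⧸ P) →₀ A} :
    f ∈ subI P A N ↔ ∀ g : G, A.ρ g⁻¹ (f (g : G ⧸ P)) ∈ N := Iff.rfl

omit [Finite (G ⧸ P)] in
lemma subI_stable (A : Rep.{0, 0, 0} k G) (N : Submodule k A) (g₀ : G) :
    subI P A N ≤ (subI P A N).comap (dIndρ P A g₀) := by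
  intro f hf g
  rw [dIndρ_apply]
  have h1 := hf (g₀⁻¹ * g)
  have h2 : ((g₀⁻¹ * g : G) : G ⧸ P) = g₀⁻¹ • (g : G ⧸ P) := rfl
  rw [h2, mul_inv_rev, inv_inv, map_mul] at h1
  exact h1

omit [Finite (G ⧸ P)] in
/-- `subI P A N` as a representation of `G`. -/
def subIRep (P : Subgroup G) (A : Rep.{0, 0, 0} k G) (N : Submodule k A) : Rep.{0, 0, 0} k G :=
  Rep.of ((dIndρ P A).subrepresentation (subI P A N) (subI_stable A N))

omit [Finite (G ⧸ P)] in
lemma subIRep_ρ_coe (A : Rep.{0, 0, 0} k G) (N : Submodule k A) (g : G)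
    (f : ↥(subI P A N)) :
    (show ↥(subI P A N) from (subIRep P A N).ρ g f).1 = dIndρ P A g f.1 := rfl

omit [Finite (G ⧸ P)] in
lemma subI_mono (A : Rep.{0, 0, 0} k G) {N N' : Submodule k A} (h : N' ≤ N) :
    subI P A N' ≤ subI P A N := fun _ hf g => h (hf g)

omit [Finite (G ⧸ P)] in
lemma subI_top (A : Rep.{0, 0, 0} k G) : subI P A ⊤ = ⊤ :=
  eq_top_iff.2 fun _ _ _ => Submodule.mem_top

omit [Finite (G ⧸ P)] in
lemma subI_bot (A : Rep.{0, 0, 0} k G) : subI P A ⊥ = ⊥ := by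
  rw [eq_bot_iff]
  intro f hf
  rw [Submodule.mem_bot]
  ext y
  induction y using QuotientGroup.induction_on with
  | H g =>
    have h1 : A.ρ g⁻¹ (f (g : G ⧸ P)) = 0 := (Submodule.mem_bot k).1 (hf g)
    have h2 := congrArg (A.ρ g) h1
    rw [map_zero, ← Module.End.mul_apply, ← map_mul, mul_inv_cancel, map_one,
      Module.End.one_apply] at h2
    rw [h2, Finsupp.zero_apply]

/-! ## The maps `piFull φ` and `theta n₀` -/

section maps

variable (P) (A : Rep.{0, 0, 0} k G)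

/-- The trivial representation on `k`. -/
abbrev trivK (k G : Type) [CommRing k] [Group G] : Rep.{0, 0, 0} k G := Rep.trivial k G k

omit [Finite (G ⧸ P)] in
lemma dIndρ_trivK_apply (g : G) (F : (G ⧸ P) →₀ k) (y : G ⧸ P) :
    dIndρ P (trivK k G) g F y = F (g⁻¹ • y) := by
  rw [dIndρ_apply]
  rfl

/-- `piFull φ f = (x ↦ φ(x̃⁻¹ • f(x)))`, `x̃ = x.out` the chosen representative of `x`. -/
def piFull (φ : A →ₗ[k] k) : ((G ⧸ P) →₀ A) →ₗ[k] ((G ⧸ P) →₀ k) :=
  ((Finsupp.linearEquivFunOnFinite k k (G ⧸ P)).symm : ((G ⧸ P) → k) →ₗ[k] ((G ⧸ P) →₀ k)) ∘ₗ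
    LinearMap.pi (fun x : G ⧸ P => φ ∘ₗ (A.ρ (x.out)⁻¹) ∘ₗ Finsupp.lapply x)

lemma piFull_apply (φ : A →ₗ[k] k) (f : (G ⧸ P) →₀ A) (x : G ⧸ P) :
    piFull P A φ f x = φ (A.ρ (x.out)⁻¹ (f x)) := by
  simp [piFull, Finsupp.linearEquivFunOnFinite]

/-- `theta n₀ F = (x ↦ F(x) • x̃ • n₀)`. -/
def theta (n₀ : A) : ((G ⧸ P) →₀ k) →ₗ[k] ((G ⧸ P) →₀ A) :=
  ((Finsupp.linearEquivFunOnFinite k A (G ⧸ P)).symm : ((G ⧸ P) → A) →ₗ[k] ((G ⧸ P) →₀ A)) ∘ₗ
    LinearMap.pi (fun x : G ⧸ P =>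
      (LinearMap.toSpanSingleton k A (A.ρ x.out n₀)) ∘ₗ Finsupp.lapply x)

lemma theta_apply (n₀ : A) (F : (G ⧸ P) →₀ k) (x : G ⧸ P) :
    theta P A n₀ F x = F x • A.ρ x.out n₀ := by
  simp [theta, Finsupp.linearEquivFunOnFinite]

/-- `piFull φ ∘ theta n₀ = φ(n₀) • id`. -/
lemma piFull_theta (φ : A →ₗ[k] k) (n₀ : A) (F : (G ⧸ P) →₀ k) :
    piFull P A φ (theta P A n₀ F) = φ n₀ • F := by
  ext x
  rw [piFull_apply, theta_apply, map_smul, ← Module.End.mul_apply, ← map_mul, inv_mul_cancel,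
    map_one, Module.End.one_apply, map_smul, Finsupp.smul_apply, smul_eq_mul, smul_eq_mul,
    mul_comm]

lemma piFull_theta_of_eq_one (φ : A →ₗ[k] k) (n₀ : A) (h : φ n₀ = 1) (F : (G ⧸ P) →₀ k) :
    piFull P A φ (theta P A n₀ F) = F := by
  rw [piFull_theta, h, one_smul]

variable {P A}

omit [Finite (G ⧸ P)] in
/-- Two representatives of the same coset differ by an element of `P`. -/
lemma exists_out_eq (g : G) : ∃ h ∈ P, ((g : G ⧸ P)).out = g * h := by
  obtain ⟨h, hh⟩ := QuotientGroup.mk_out_eq_mul P g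
  exact ⟨h.1, h.2, hh⟩

/-- On `subI P A N`, `piFull φ` may be computed with any representative, if `φ` is
`P`-invariant on `N`. -/
lemma piFull_apply_mk {N : Submodule k A} {φ : A →ₗ[k] k}
    (hφ : ∀ h ∈ P, ∀ n ∈ N, φ (A.ρ h n) = φ n) {f : (G ⧸ P) →₀ A} (hf : f ∈ subI P A N)
    (g : G) : piFull P A φ f (g : G ⧸ P) = φ (A.ρ g⁻¹ (f (g : G ⧸ P))) := by
  rw [piFull_apply]
  obtain ⟨h, hh, hout⟩ := exists_out_eq (P := P) g
  rw [hout, mul_inv_rev, map_mul]
  exact hφ h⁻¹ (P.inv_mem hh) _ (hf g)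

/-- `piFull φ` is equivariant on `subI P A N`. -/
lemma piFull_equivariant {N : Submodule k A} {φ : A →ₗ[k] k}
    (hφ : ∀ h ∈ P, ∀ n ∈ N, φ (A.ρ h n) = φ n) {f : (G ⧸ P) →₀ A} (hf : f ∈ subI P A N)
    (g₀ : G) :
    piFull P A φ (dIndρ P A g₀ f) = dIndρ P (trivK k G) g₀ (piFull P A φ f) := by
  ext y
  induction y using QuotientGroup.induction_on with
  | H g =>
    rw [piFull_apply_mk hφ (subI_stable A N g₀ hf) g, dIndρ_trivK_apply, dIndρ_apply]
    have h2 : g₀⁻¹ • (g : G ⧸ P) = ((g₀⁻¹ * g : G) : G ⧸ P) := rfl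
    rw [h2, piFull_apply_mk hφ hf (g₀⁻¹ * g), ← Module.End.mul_apply, ← map_mul, mul_inv_rev,
      inv_inv]

/-- The kernel of `piFull φ` on `subI P A N` is `subI P A (N ⊓ ker φ)`. -/
lemma piFull_eq_zero_iff {N : Submodule k A} {φ : A →ₗ[k] k}
    (hφ : ∀ h ∈ P, ∀ n ∈ N, φ (A.ρ h n) = φ n) {f : (G ⧸ P) →₀ A} (hf : f ∈ subI P A N) :
    piFull P A φ f = 0 ↔ f ∈ subI P A (N ⊓ LinearMap.ker φ) := by
  constructor
  · intro h0 g
    refine ⟨hf g, ?_⟩
    show φ (A.ρ g⁻¹ (f (g : G ⧸ P))) = 0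
    rw [← piFull_apply_mk hφ hf g, h0, Finsupp.zero_apply]
  · intro h
    ext y
    induction y using QuotientGroup.induction_on with
    | H g =>
      rw [piFull_apply_mk hφ hf g, Finsupp.zero_apply]
      exact (h g).2

/-- `theta n₀ F ∈ subI P A N` if `n₀ ∈ N` and `N` is `P`-stable. -/
lemma theta_mem_subI {N : Submodule k A} (hN : ∀ h ∈ P, ∀ n ∈ N, A.ρ h n ∈ N) {n₀ : A}
    (hn₀ : n₀ ∈ N) (F : (G ⧸ P) →₀ k) : theta P A n₀ F ∈ subI P A N := by
  intro g
  rw [theta_apply, map_smul]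
  obtain ⟨h, hh, hout⟩ := exists_out_eq (P := P) g
  rw [hout, ← Module.End.mul_apply, ← map_mul, inv_mul_cancel_left]
  exact N.smul_mem _ (hN h hh _ hn₀)

/-- `theta m₀` is equivariant if `m₀` is fixed by `P`. -/
lemma theta_equivariant {m₀ : A} (hm₀ : ∀ h ∈ P, A.ρ h m₀ = m₀) (g₀ : G)
    (F : (G ⧸ P) →₀ k) :
    theta P A m₀ (dIndρ P (trivK k G) g₀ F) = dIndρ P A g₀ (theta P A m₀ F) := by
  have key : ∀ g : G, A.ρ ((g : G ⧸ P)).out m₀ = A.ρ g m₀ := by
    intro g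
    obtain ⟨h, hh, hout⟩ := exists_out_eq (P := P) g
    rw [hout, map_mul, Module.End.mul_apply, hm₀ h hh]
  ext y
  induction y using QuotientGroup.induction_on with
  | H g =>
    rw [theta_apply, dIndρ_trivK_apply, dIndρ_apply, theta_apply, (A.ρ g₀).map_smul]
    have h2 : g₀⁻¹ • (g : G ⧸ P) = ((g₀⁻¹ * g : G) : G ⧸ P) := rfl
    rw [h2, key g, key (g₀⁻¹ * g), ← Module.End.mul_apply, ← map_mul, mul_inv_cancel_left]

end maps

end Fermat.Agent.S55.H593.Dev

end
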