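import Fermat.Agent.S55.H593.Dev.Ind

/-!
# S55: abstract dévissage, part 3: the theorem (helper593)

`G` any group, `𝓛` a directed family of finite-index subgroups with cofinal normal members,
`k = ZMod p`, `μ` a `G`-module of order `p` on which some level acts trivially.

**Theorem** (`H3V_of_ind`).  If `H³_lc(G, Ind_H μ) = 0` for every open subgroup `H`, then
`H³_lc(G, R) = 0` for every finite-dimensional `R` on which some level acts trivially.

Proof.  `U` a normal level acting trivially on `R` and `μ`, `P ⊇ U` the preimage of a Sylow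
`p`-subgroup of `G ⧸ U`.  `R` is a retract of `Ind_P R` (`[G : P]` is prime to `p`); `Ind_P R` has
a filtration by the `G`-stable submodules `subI P R N` (`N` running through a `P`-stable flag of
`R` with trivial one-dimensional quotients: fixed point theorem for the `p`-group `P/U` acting on
the dual) with successive quotients `≅ k[G/P]`; `k[G/P]` is a retract of `Ind_P μ` (`P` acts
trivially on `μ`); `H3V` is closed under extensions and retracts.

Mathlib only.
-/

set_option autoImplicit false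
set_option linter.style.haveILetI false

noncomputable section

namespace Fermat.Agent.S55.H593.Dev

open groupCohomology

variable {G : Type} [Group G] {p : ℕ} [Fact p.Prime]

/-! ## Invariant functionals -/

/-- **Fixed point theorem.**  Let `P` act on `A` through a `p`-group (some subgroup `U` acts
trivially and every element of `P` has a `p`-power in `U`), and let `N ≠ 0` be a `P`-stable
subspace of the finite-dimensional `𝔽_p`-space `A`.  Then there is a linear functional `φ` on `A`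
which is `P`-invariant on `N` and takes the value `1` on `N`. -/
theorem exists_invariant_functional (A : Rep.{0, 0, 0} (ZMod p) G)
    [FiniteDimensional (ZMod p) A] (P U : Subgroup G)
    (hPU : ∀ h ∈ P, ∃ n : ℕ, h ^ p ^ n ∈ U) (hU : ∀ s ∈ U, ∀ a : A, A.ρ s a = a)
    (N : Submodule (ZMod p) A) (hN : ∀ h ∈ P, ∀ n ∈ N, A.ρ h n ∈ N) (hN0 : N ≠ ⊥) :
    ∃ φ : A →ₗ[ZMod p] ZMod p, (∀ h ∈ P, ∀ n ∈ N, φ (A.ρ h n) = φ n) ∧ ∃ n₀ ∈ N, φ n₀ = 1 := by
  classical
  -- the representation of `P` on `N` and on its dual `X`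
  let ρP : Representation (ZMod p) ↥P A := A.ρ.comp P.subtype
  let ρN : Representation (ZMod p) ↥P ↥N :=
    ρP.subrepresentation N (fun h n hn => hN h.1 h.2 n hn)
  let Φ : ↥P →* (Module.End (ZMod p) (Module.Dual (ZMod p) ↥N))ˣ := ρN.dual.asGroupHom
  have hΦ : ∀ (h : ↥P) (ψ : Module.Dual (ZMod p) ↥N) (n : ↥N),
      ((Φ h : Module.End (ZMod p) (Module.Dual (ZMod p) ↥N)) ψ) n =
        ψ ⟨A.ρ (h⁻¹ : ↥P).1 n.1, hN _ (h⁻¹ : ↥P).2 _ n.2⟩ := by
    intro h ψ n
    show (ρN.dual h ψ) n = _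
    rw [Representation.dual_apply]
    rfl
  -- its image is a `p`-group
  have hT : IsPGroup p ↥Φ.range := by
    rintro ⟨t, h, rfl⟩
    obtain ⟨n, hn⟩ := hPU h.1 h.2
    refine ⟨n, ?_⟩
    apply Subtype.ext
    show (Φ h) ^ p ^ n = 1
    rw [← map_pow]
    apply Units.ext
    apply LinearMap.ext
    intro ψ
    apply LinearMap.ext
    intro m
    rw [hΦ]
    show ψ _ = ψ m
    congr 1
    apply Subtype.ext
    show A.ρ ((h ^ p ^ n)⁻¹ : ↥P).1 m.1 = m.1
    have : (((h ^ p ^ n)⁻¹ : ↥P) : G) ∈ U := by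
      have h1 : (((h ^ p ^ n)⁻¹ : ↥P) : G) = ((h : G) ^ p ^ n)⁻¹ := by simp
      rw [h1]
      exact U.inv_mem hn
    exact hU _ this _
  -- cardinality of the dual
  haveI : Module.Finite (ZMod p) ↥N := inferInstance
  haveI : Finite (Module.Dual (ZMod p) ↥N) := Module.finite_of_finite (ZMod p)
  have hpos : 0 < Module.finrank (ZMod p) ↥N := by
    rw [Nat.pos_iff_ne_zero, Ne, Submodule.finrank_eq_zero]
    exact hN0
  have hcard : p ∣ Nat.card (Module.Dual (ZMod p) ↥N) := by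
    rw [Module.natCard_eq_pow_finrank (K := ZMod p), Subspace.dual_finrank_eq, Nat.card_zmod]
    exact dvd_pow_self p hpos.ne'
  have h0 : (0 : Module.Dual (ZMod p) ↥N) ∈
      MulAction.fixedPoints ↥Φ.range (Module.Dual (ZMod p) ↥N) := by
    rw [MulAction.mem_fixedPoints]
    rintro ⟨t, ht⟩
    show (t : Module.End (ZMod p) (Module.Dual (ZMod p) ↥N)) 0 = 0
    rw [map_zero]
  obtain ⟨ψ, hψfix, hψ0⟩ :=
    hT.exists_fixed_point_of_prime_dvd_card_of_fixed_point (Module.Dual (ZMod p) ↥N) hcard h0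
  rw [MulAction.mem_fixedPoints] at hψfix
  -- `ψ` is `P`-invariant
  have hψinv : ∀ (h : ↥P) (n : ↥N), ψ ⟨A.ρ h.1 n.1, hN _ h.2 _ n.2⟩ = ψ n := by
    intro h n
    have h1 := hψfix ⟨Φ h⁻¹, h⁻¹, rfl⟩
    have h2 : (Φ h⁻¹ : Module.End (ZMod p) (Module.Dual (ZMod p) ↥N)) ψ = ψ := h1
    have h3 := hΦ h⁻¹ ψ n
    rw [h2] at h3
    rw [h3]
    congr 1
    apply Subtype.ext
    show A.ρ h.1 n.1 = A.ρ ((h⁻¹)⁻¹ : ↥P).1 n.1
    rw [inv_inv]
  -- extend `ψ` to `A`
  obtain ⟨φ, hφ⟩ := LinearMap.exists_extend ψ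
  have hφN : ∀ (n : A) (hn : n ∈ N), φ n = ψ ⟨n, hn⟩ := fun n hn => by
    rw [← hφ]
    rfl
  refine ⟨φ, fun h hh n hn => ?_, ?_⟩
  · rw [hφN _ (hN h hh n hn), hφN _ hn]
    exact hψinv ⟨h, hh⟩ ⟨n, hn⟩
  · have hne : ∃ n : ↥N, ψ n ≠ 0 := by
      by_contra hcon
      apply hψ0
      symm
      apply LinearMap.ext
      intro n
      by_contra hne
      exact hcon ⟨n, hne⟩
    obtain ⟨n₁, hn₁⟩ := hne
    refine ⟨(ψ n₁)⁻¹ • n₁.1, N.smul_mem _ n₁.2, ?_⟩
    rw [map_smul, hφN _ n₁.2, smul_eq_mul]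
    exact inv_mul_cancel₀ hn₁

/-- A `p`-group acts trivially on a module of order `p`. -/
theorem acts_trivially_of_card (μ : Rep.{0, 0, 0} (ZMod p) G) (hμ : Nat.card μ = p)
    (P U : Subgroup G) (hPU : ∀ h ∈ P, ∃ n : ℕ, h ^ p ^ n ∈ U)
    (hU : ∀ s ∈ U, ∀ a : μ, μ.ρ s a = a) :
    ∃ (φ : μ →ₗ[ZMod p] ZMod p) (m₀ : μ), φ m₀ = 1 ∧ (∀ h ∈ P, ∀ m : μ, μ.ρ h m = m) := by
  classical
  have hp : p.Prime := Fact.out
  haveI : Finite μ := Nat.finite_of_card_ne_zero (by rw [hμ]; exact hp.ne_zero)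
  haveI : FiniteDimensional (ZMod p) μ := Module.Finite.of_finite
  have htop : (⊤ : Submodule (ZMod p) μ) ≠ ⊥ := by
    intro h
    have h1 : ∀ m : μ, m = 0 := fun m => by
      have : m ∈ (⊤ : Submodule (ZMod p) μ) := Submodule.mem_top
      rw [h] at this
      exact (Submodule.mem_bot _).1 this
    haveI : Subsingleton μ := ⟨fun a b => by rw [h1 a, h1 b]⟩
    have h2 : Nat.card μ = 1 := Nat.card_of_subsingleton 0
    rw [hμ] at h2
    exact hp.one_lt.ne' h2
  obtain ⟨φ, hφ, m₀, -, hm₀⟩ := exists_invariant_functional μ P U hPU hU ⊤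
    (fun _ _ _ _ => Submodule.mem_top) htop
  have hsurj : Function.Surjective φ := fun c => ⟨c • m₀, by rw [map_smul, hm₀, smul_eq_mul, mul_one]⟩
  have hbij : Function.Bijective φ :=
    hsurj.bijective_of_nat_card_le (by rw [hμ, Nat.card_zmod])
  exact ⟨φ, m₀, hm₀, fun h hh m => hbij.1 (hφ h hh m Submodule.mem_top)⟩

/-! ## The filtration induction -/

/-- A normal subgroup `U ≤ P` acting trivially on `A` acts trivially on `Ind_P A`. -/
theorem dIndρ_eq_self_of_normal (k : Type) [CommRing k] (A : Rep.{0, 0, 0} k G)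
    (P U : Subgroup G) [U.Normal] (hUP : U ≤ P) (hU : ∀ s ∈ U, ∀ a : A, A.ρ s a = a)
    (s : G) (hs : s ∈ U) (f : (G ⧸ P) →₀ A) : dIndρ P A s f = f := by
  ext y
  induction y using QuotientGroup.induction_on with
  | H g =>
    rw [dIndρ_apply, hU s hs]
    congr 1
    show ((s⁻¹ * g : G) : G ⧸ P) = (g : G ⧸ P)
    rw [QuotientGroup.eq]
    have h1 : (s⁻¹ * g)⁻¹ * g = g⁻¹ * s * g := by group
    rw [h1]
    apply hUP
    have := (inferInstance : U.Normal).conj_mem s hs g⁻¹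
    simpa using this

/-- **Filtration step.**  `H3V (k[G/P]) ⇒ H3V (subI P A N)` for every `P`-stable subspace `N`. -/
theorem H3V_subIRep {𝓛 : Set (Subgroup G)} (hd : Directed' 𝓛) (hn : NormalCofinal' 𝓛)
    (P : Subgroup G) [Finite (G ⧸ P)] (U : Subgroup G) (hU𝓛 : U ∈ 𝓛) [U.Normal] (hUP : U ≤ P)
    (hPU : ∀ h ∈ P, ∃ n : ℕ, h ^ p ^ n ∈ U)
    (A : Rep.{0, 0, 0} (ZMod p) G) [FiniteDimensional (ZMod p) A]
    (hUA : ∀ s ∈ U, ∀ a : A, A.ρ s a = a)
    (hperm : H3V 𝓛 (dInd P (trivK (ZMod p) G))) :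
    ∀ (d : ℕ) (N : Submodule (ZMod p) A), (∀ h ∈ P, ∀ n ∈ N, A.ρ h n ∈ N) →
      Module.finrank (ZMod p) ↥N < d → H3V 𝓛 (subIRep P A N) := by
  intro d
  induction d with
  | zero => intro N _ h; exact absurd h (Nat.not_lt_zero _)
  | succ d ih =>
    intro N hN hd'
    by_cases hN0 : N = ⊥
    · subst hN0
      haveI : Subsingleton ↥(subI P A (⊥ : Submodule (ZMod p) A)) := by
        rw [subI_bot]
        infer_instance
      haveI : Subsingleton (subIRep P A (⊥ : Submodule (ZMod p) A)) :=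
        (inferInstance : Subsingleton ↥(subI P A (⊥ : Submodule (ZMod p) A)))
      exact H3V.of_subsingleton 𝓛 ⟨U, hU𝓛⟩ _
    · obtain ⟨φ, hφ, n₀, hn₀, hφn₀⟩ := exists_invariant_functional A P U hPU hUA N hN hN0
      -- the smaller subspace
      have hN' : ∀ h ∈ P, ∀ n ∈ N ⊓ LinearMap.ker φ, A.ρ h n ∈ N ⊓ LinearMap.ker φ := by
        rintro h hh n ⟨hn1, hn2⟩
        refine ⟨hN h hh n hn1, ?_⟩
        show φ (A.ρ h n) = 0
        rw [hφ h hh n hn1]
        exact hn2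
      have hlt : N ⊓ LinearMap.ker φ < N := by
        refine lt_of_le_of_ne inf_le_left (fun h => ?_)
        have h1 : n₀ ∈ N ⊓ LinearMap.ker φ := by rw [h]; exact hn₀
        have h2 : φ n₀ = 0 := h1.2
        rw [hφn₀] at h2
        exact one_ne_zero h2
      have hrank : Module.finrank (ZMod p) ↥(N ⊓ LinearMap.ker φ) < d :=
        lt_of_lt_of_le (Submodule.finrank_lt_finrank_of_lt hlt) (Nat.lt_succ_iff.1 hd')
      have h' := ih (N ⊓ LinearMap.ker φ) hN' hrank
      -- the extension `0 → subI N' → subI N → k[G/P] → 0`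
      have hsm : USmooth 𝓛 (subIRep P A N) :=
        ⟨U, hU𝓛, fun s hs f => Subtype.ext (dIndρ_eq_self_of_normal (ZMod p) A P U hUP hUA s hs f.1)⟩
      let i : subIRep P A (N ⊓ LinearMap.ker φ) →ₗ[ZMod p] subIRep P A N :=
        Submodule.inclusion (subI_mono A inf_le_left)
      let π : subIRep P A N →ₗ[ZMod p] dInd P (trivK (ZMod p) G) :=
        (piFull P A φ) ∘ₗ (subI P A N).subtype
      refine H3V.of_extension hd hn hsm i π (fun g a => rfl) ?_ ?_ ?_ ?_ h' hperm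
      · intro g f
        exact piFull_equivariant hφ f.2 g
      · exact Submodule.inclusion_injective _
      · intro F
        refine ⟨⟨theta P A n₀ F, theta_mem_subI hN hn₀ F⟩, ?_⟩
        exact piFull_theta_of_eq_one P A φ n₀ hφn₀ F
      · intro f hf
        have hf' : piFull P A φ f.1 = 0 := hf
        exact ⟨⟨f.1, (piFull_eq_zero_iff hφ f.2).1 hf'⟩, rfl⟩

/-! ## The theorem -/

/-- **Abstract dévissage** (sharp form).  If `H³_lc(G, Ind_H μ) = 0` for every open subgroup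
`H` ACTING TRIVIALLY ON `μ` (`μ` of order `p`, fixed by some level), then `H³_lc(G, R) = 0` for
every finite-dimensional `R` fixed by some level. -/
theorem H3V_of_ind_triv {𝓛 : Set (Subgroup G)} (hd : Directed' 𝓛) (hn : NormalCofinal' 𝓛)
    (hfi : ∀ U ∈ 𝓛, U.FiniteIndex)
    (μ : Rep.{0, 0, 0} (ZMod p) G) (hμcard : Nat.card μ = p) (hμ : USmooth 𝓛 μ)
    (hInd : ∀ H : Subgroup G, IsOpenSub 𝓛 H → (∀ s ∈ H, ∀ m : μ, μ.ρ s m = m) →
      H3V 𝓛 (dInd H μ))
    (R : Rep.{0, 0, 0} (ZMod p) G) [FiniteDimensional (ZMod p) R] (hR : USmooth 𝓛 R) :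
    H3V 𝓛 R := by
  classical
  have hp : p.Prime := Fact.out
  -- a normal level acting trivially on `R` and `μ`
  obtain ⟨U₁, hU₁, hU₁R⟩ := hR
  obtain ⟨U₂, hU₂, hU₂μ⟩ := hμ
  obtain ⟨W, hW, hWle⟩ := hd U₁ hU₁ U₂ hU₂
  obtain ⟨U, hU, hUW, hUn⟩ := hn W hW
  haveI := hUn
  have hUR : ∀ s ∈ U, ∀ a : R, R.ρ s a = a := fun s hs => hU₁R s (hWle (hUW hs)).1
  have hUμ : ∀ s ∈ U, ∀ a : μ, μ.ρ s a = a := fun s hs => hU₂μ s (hWle (hUW hs)).2
  haveI := hfi U hU
  haveI : Finite (G ⧸ U) := Subgroup.finite_quotient_of_finiteIndex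
  -- the Sylow preimage
  obtain ⟨Pbar⟩ := (Sylow.nonempty : Nonempty (Sylow p (G ⧸ U)))
  let P : Subgroup G := (Pbar : Subgroup (G ⧸ U)).comap (QuotientGroup.mk' U)
  have hUP : U ≤ P := by
    intro s hs
    show (QuotientGroup.mk' U) s ∈ (Pbar : Subgroup (G ⧸ U))
    have : (QuotientGroup.mk' U) s = 1 := (QuotientGroup.eq_one_iff s).2 hs
    rw [this]
    exact Subgroup.one_mem _
  have hPU : ∀ h ∈ P, ∃ n : ℕ, h ^ p ^ n ∈ U := by
    intro h hh
    obtain ⟨n, hn⟩ := Pbar.isPGroup' ⟨(QuotientGroup.mk' U) h, hh⟩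
    refine ⟨n, ?_⟩
    have h1 : ((QuotientGroup.mk' U) h) ^ p ^ n = 1 := congrArg Subtype.val hn
    rw [← map_pow] at h1
    exact (QuotientGroup.eq_one_iff _).1 h1
  haveI : (Pbar : Subgroup (G ⧸ U)).FiniteIndex := Subgroup.finiteIndex_of_finite_quotient
  have hindex : P.index = (Pbar : Subgroup (G ⧸ U)).index :=
    Subgroup.index_comap_of_surjective _ (QuotientGroup.mk'_surjective U)
  have hpidx : ¬ p ∣ P.index := by
    rw [hindex]
    exact Pbar.not_dvd_index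
  haveI : P.FiniteIndex := ⟨by rw [hindex]; exact Subgroup.FiniteIndex.index_ne_zero⟩
  haveI : Finite (G ⧸ P) := Subgroup.finite_quotient_of_finiteIndex
  -- `k[G/P]` is a retract of `Ind_P μ`
  obtain ⟨φ₀, m₀, hφ₀, hPμ⟩ := acts_trivially_of_card μ hμcard P U hPU hUμ
  have hperm : H3V 𝓛 (dInd P (trivK (ZMod p) G)) := by
    refine H3V.of_retract (A := dInd P (trivK (ZMod p) G)) (B := dInd P μ)
      (theta P μ m₀) (piFull P μ φ₀) ?_ ?_ ?_ (hInd P ⟨U, hU, hUP⟩ hPμ)
    · intro g F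
      exact theta_equivariant (fun h hh => hPμ h hh m₀) g F
    · intro g f
      exact piFull_equivariant (N := ⊤) (fun h hh n _ => by rw [hPμ h hh n])
        (by rw [subI_top]; exact Submodule.mem_top) g
    · intro F
      exact piFull_theta_of_eq_one P μ φ₀ m₀ hφ₀ F
  -- filtration
  have hfil : H3V 𝓛 (subIRep P R ⊤) :=
    H3V_subIRep hd hn P U hU hUP hPU R hUR hperm (Module.finrank (ZMod p) ↥(⊤ : Submodule (ZMod p) R) + 1)
      ⊤ (fun _ _ _ _ => Submodule.mem_top) (Nat.lt_succ_self _)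
  -- `Ind_P R ≅ subI P R ⊤`
  have hIndR : H3V 𝓛 (dInd P R) := by
    let i : dInd P R →ₗ[ZMod p] subIRep P R ⊤ :=
      LinearMap.codRestrict (subI P R ⊤) LinearMap.id
        (fun f => by rw [subI_top]; exact Submodule.mem_top)
    let r : subIRep P R ⊤ →ₗ[ZMod p] dInd P R := (subI P R ⊤).subtype
    exact H3V.of_retract i r (fun g a => rfl) (fun g b => rfl) (fun a => rfl) hfil
  -- `R` is a retract of `Ind_P R`
  have hc : ((P.index : ℕ) : ZMod p) ≠ 0 := by
    rw [Ne, ZMod.natCast_eq_zero_iff]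
    exact hpidx
  have hc' : ((P.index : ZMod p)⁻¹) * ((Nat.card (G ⧸ P) : ℕ) : ZMod p) = 1 := by
    have : Nat.card (G ⧸ P) = P.index := rfl
    rw [this]
    exact inv_mul_cancel₀ hc
  exact H3V.of_retract (diag P R) (((P.index : ZMod p)⁻¹) • aug P R)
    (fun g a => diag_equivariant P R g a)
    (fun g f => smul_aug_equivariant P R _ g f)
    (fun a => smul_aug_diag P R _ hc' a) hIndR

/-- **Abstract dévissage.**  If `H³_lc(G, Ind_H μ) = 0` for every open subgroup `H`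
(`μ` of order `p`, fixed by some level), then `H³_lc(G, R) = 0` for every finite-dimensional
`R` fixed by some level. -/
theorem H3V_of_ind {𝓛 : Set (Subgroup G)} (hd : Directed' 𝓛) (hn : NormalCofinal' 𝓛)
    (hfi : ∀ U ∈ 𝓛, U.FiniteIndex)
    (μ : Rep.{0, 0, 0} (ZMod p) G) (hμcard : Nat.card μ = p) (hμ : USmooth 𝓛 μ)
    (hInd : ∀ H : Subgroup G, IsOpenSub 𝓛 H → H3V 𝓛 (dInd H μ))
    (R : Rep.{0, 0, 0} (ZMod p) G) [FiniteDimensional (ZMod p) R] (hR : USmooth 𝓛 R) :
    H3V 𝓛 R :=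
  H3V_of_ind_triv hd hn hfi μ hμcard hμ (fun H hH _ => hInd H hH) R hR

/-- A module of `𝔽_p`-dimension one has order `p`. -/
theorem natCard_eq_of_finrank_eq_one (μ : Rep.{0, 0, 0} (ZMod p) G)
    (h : Module.finrank (ZMod p) μ = 1) : Nat.card μ = p := by
  haveI : Module.Finite (ZMod p) μ := Module.finite_of_finrank_pos (by rw [h]; exact one_pos)
  rw [Module.natCard_eq_pow_finrank (K := ZMod p), h, pow_one, Nat.card_zmod]

end Fermat.Agent.S55.H593.Dev

end
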