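import Fermat.Agent.S55.H593.Dev.Main
import Fermat.Agent.S55.PT.Ind

/-!
# S55: abstract dévissage in the vocabulary of layer D (`PT.LevelSys`, `PT.indRep`)   (helper593)

`h3Devissage_PT`: for any group `G` with a level system `L : PT.LevelSys G`
(`NormalCofinal`, `FiniteIndex`) and a one-dimensional uniformly smooth `μ`:
if `H³_lc(G, Ind_H μ) = 0` for every open subgroup `H` acting trivially on `μ`, then
`H³_lc(G, R) = 0` for every finite-dimensional uniformly smooth `R`.

`H³_lc = 0` is `Dev.H3V L.levels` (cochain form: every level-constant 3-cocycle is `d₂₃` of a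
level-constant 2-cochain) — literally `K.H3Vanish L` (helper4) and `KL.H3Vanish L` (helper53)
after unfolding.  So this is KL-P3 `H3DevissageSpec` and (with `Bridge`) K-T2.
-/

set_option autoImplicit false
set_option linter.style.haveILetI false

noncomputable section

namespace Fermat.Agent.S55.H593.Dev

open groupCohomology Fermat.Agent.S55.PT

variable {G : Type} [Group G]

/-- `PT.indRep` is `Dev.dInd`. -/
theorem indRep_eq_dInd {k : Type} [Field k] (H : Subgroup G) (A : Rep.{0, 0, 0} k G) :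
    indRep H A = dInd H A := rfl

/-- `Dev.IsLC2` is `PT.LevelSys.IsLC₂`. -/
theorem isLC2_iff (L : LevelSys G) {X : Type*} (f : G × G → X) :
    IsLC2 L.levels f ↔ L.IsLC₂ f := Iff.rfl

/-- `Dev.USmooth` is `PT.LevelSys.IsUSmooth`. -/
theorem uSmooth_iff {k : Type} [CommRing k] (L : LevelSys G) (A : Rep.{0, 0, 0} k G) :
    USmooth L.levels A ↔ L.IsUSmooth A := Iff.rfl

/-- **Dévissage in PT vocabulary** (= KL-P3 of helper53, K-T2 of helper4). -/
theorem h3Devissage_PT (L : LevelSys G) (p : ℕ) [Fact p.Prime]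
    (μ : Rep.{0, 0, 0} (ZMod p) G) (hn : L.NormalCofinal) (hfi : L.FiniteIndex)
    (hμ1 : Module.finrank (ZMod p) μ = 1) (hμ : L.IsUSmooth μ)
    (hInd : ∀ H : Subgroup G, (∃ U ∈ L.levels, U ≤ H) → (∀ s ∈ H, μ.ρ s = 1) →
      H3V L.levels (indRep H μ))
    (R : Rep.{0, 0, 0} (ZMod p) G) (hRfd : FiniteDimensional (ZMod p) R)
    (hR : L.IsUSmooth R) : H3V L.levels R := by
  haveI := hRfd
  refine H3V_of_ind_triv (𝓛 := L.levels) L.directed hn hfi μ
    (natCard_eq_of_finrank_eq_one μ hμ1) hμ ?_ R hR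
  intro H hH htriv
  refine hInd H hH (fun s hs => ?_)
  ext m
  exact htriv s hs m

end Fermat.Agent.S55.H593.Dev

end
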